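import Fermat.Agent.S27.H866.Proper
import Fermat.Agent.S27.Spec
import Fermat.Agent.S25.H250.ChartAlg

/-!
# Row S27, leaf CURVE-SCHEME (helper866)

`curveScheme : Stmt.CurveScheme k` : a curve chart `(B₀, B₁, B₀₁, x, y, e)` is the two-chart
presentation of the smooth proper integral pointed curve `Spec B₀ ∪ Spec B₁` (glued along
`Spec B₀₁`).
-/

set_option autoImplicit false
set_option linter.style.haveILetI false
set_option linter.unusedSectionVars false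

open CategoryTheory CategoryTheory.Limits AlgebraicGeometry Opposite
open AlgebraicGeometry.RelPicard NeronModelInfra GoodReductionJacobian
open scoped KaehlerDifferential

universe u

namespace Fermat.Agent.S27.H866

open Fermat.Agent.S25

section Smooth

lemma locally_isStandardSmooth_one (k B : Type u) [Field k] [CommRing B] [Algebra k B]
    [IsDomain B] [Algebra.Smooth k B] [Module.Invertible B Ω[B⁄k]] :
    RingHom.Locally (RingHom.IsStandardSmoothOfRelativeDimension 1) (algebraMap k B) := by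
  obtain ⟨s, hs, h⟩ := Algebra.Smooth.exists_span_eq_top_isStandardSmooth k B
  refine ⟨s \ {0}, ?_, ?_⟩
  · rw [← hs]
    exact Submodule.span_sdiff_singleton_zero
  · rintro t ⟨hts, ht0⟩
    have ht0' : t ≠ 0 := fun h0 => ht0 (by simpa using h0)
    rw [← IsScalarTower.algebraMap_eq, RingHom.isStandardSmoothOfRelativeDimension_algebraMap]
    haveI := h t hts
    haveI : Nontrivial (Localization.Away t) :=
      (IsLocalization.injective (Localization.Away t)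
        (powers_le_nonZeroDivisors_of_noZeroDivisors ht0')).nontrivial
    rw [Algebra.IsStandardSmoothOfRelativeDimension.iff_of_isStandardSmooth]
    haveI : Module.Invertible (Localization.Away t) Ω[Localization.Away t⁄k] :=
      Module.Invertible.congr
        (KaehlerDifferential.tensorKaehlerEquivOfFormallyEtale k B (Localization.Away t))
    exact_mod_cast Module.Invertible.rank_eq_one (R := Localization.Away t)
      (M := Ω[Localization.Away t⁄k])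

lemma smoothOfRelativeDimension_one_specMap (k B : Type u) [Field k] [CommRing B] [Algebra k B]
    [IsDomain B] [Algebra.Smooth k B] [Module.Invertible B Ω[B⁄k]] :
    SmoothOfRelativeDimension 1 (Spec.map (CommRingCat.ofHom (algebraMap k B))) := by
  rw [HasRingHomProperty.Spec_iff (P := @SmoothOfRelativeDimension 1)]
  exact locally_isStandardSmooth_one k B

end Smooth

noncomputable section

variable (k : Type u) [Field k] (B₀ B₁ B₀₁ : Type u) [CommRing B₀] [CommRing B₁] [CommRing B₀₁]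
  [Algebra k B₀] [Algebra k B₁] [Algebra k B₀₁] [Algebra B₀ B₀₁] [Algebra B₁ B₀₁]
  [IsScalarTower k B₀ B₀₁] [IsScalarTower k B₁ B₀₁]
  [IsOpenImmersion (j₀ B₀ B₀₁)] [IsOpenImmersion (j₁ B₁ B₀₁)]

/-- The two charts as an open cover. -/
def chartCover : (curve B₀ B₁ B₀₁).OpenCover :=
  Scheme.Cover.mkOfCovers Bool
    (fun b => Bool.rec (Spec (CommRingCat.of B₀)) (Spec (CommRingCat.of B₁)) b)
    (fun b => Bool.rec (motive := fun b => (Bool.rec (Spec (CommRingCat.of B₀))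
      (Spec (CommRingCat.of B₁)) b : Scheme.{u}) ⟶ curve B₀ B₁ B₀₁)
      (ι₀ B₀ B₁ B₀₁) (ι₁ B₀ B₁ B₀₁) b)
    (fun p => by
      rcases curve_cases B₀ B₁ B₀₁ p with ⟨x, hx⟩ | ⟨y, hy⟩
      · exact ⟨false, x, hx⟩
      · exact ⟨true, y, hy⟩)
    (fun b => by
      cases b
      · exact inferInstanceAs (IsOpenImmersion (ι₀ B₀ B₁ B₀₁))
      · exact inferInstanceAs (IsOpenImmersion (ι₁ B₀ B₁ B₀₁)))

lemma isReduced_curve [IsDomain B₀] [IsDomain B₁] : IsReduced (curve B₀ B₁ B₀₁) := by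
  have : ∀ i, IsReduced ((chartCover B₀ B₁ B₀₁).X i) := by
    intro i
    cases i
    · exact inferInstanceAs (IsReduced (Spec (CommRingCat.of B₀)))
    · exact inferInstanceAs (IsReduced (Spec (CommRingCat.of B₁)))
  exact IsReduced.of_openCover _ (chartCover B₀ B₁ B₀₁)

lemma irreducibleSpace_curve [IsDomain B₀] [IsDomain B₁] [Nontrivial B₀₁] :
    IrreducibleSpace (curve B₀ B₁ B₀₁) := by
  set η : Spec (CommRingCat.of B₀) := genericPoint (Spec (CommRingCat.of B₀)) with hη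
  have hgen : closure ({η} : Set (Spec (CommRingCat.of B₀))) = Set.univ :=
    (genericPoint_spec (Spec (CommRingCat.of B₀))).def
  set Z : Set (curve B₀ B₁ B₀₁) := closure {ι₀ B₀ B₁ B₀₁ η} with hZ
  have hU₀ : ∀ a, ι₀ B₀ B₁ B₀₁ a ∈ Z := by
    intro a
    have h1 : a ∈ closure ({η} : Set (Spec (CommRingCat.of B₀))) := by rw [hgen]; trivial
    have h2 := image_closure_subset_closure_image (ι₀ B₀ B₁ B₀₁).continuous
      (Set.mem_image_of_mem _ h1)
    rwa [Set.image_singleton] at h2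
  have hU₁ : ∀ b, ι₁ B₀ B₁ B₀₁ b ∈ Z := by
    intro b
    by_contra hb
    have hWo : IsOpen ((ι₁ B₀ B₁ B₀₁) ⁻¹' Zᶜ) :=
      (isClosed_closure.isOpen_compl).preimage (ι₁ B₀ B₁ B₀₁).continuous
    have hVo : IsOpen (Set.range (j₁ B₁ B₀₁)) := (j₁ B₁ B₀₁).isOpenEmbedding.isOpen_range
    obtain ⟨z⟩ : Nonempty (Spec (CommRingCat.of B₀₁)) :=
      inferInstanceAs (Nonempty (PrimeSpectrum B₀₁))
    obtain ⟨q, hq1, hq2⟩ := nonempty_preirreducible_inter hWo hVo ⟨b, hb⟩ ⟨_, ⟨z, rfl⟩⟩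
    obtain ⟨z', rfl⟩ := hq2
    apply hq1
    have : ι₁ B₀ B₁ B₀₁ (j₁ B₁ B₀₁ z') = ι₀ B₀ B₁ B₀₁ (j₀ B₀ B₀₁ z') := by
      rw [← Scheme.Hom.comp_apply, ← Scheme.Hom.comp_apply, j₀_ι₀]
    rw [this]
    exact hU₀ _
  have hZuniv : Z = Set.univ := by
    rw [Set.eq_univ_iff_forall]
    intro p
    rcases curve_cases B₀ B₁ B₀₁ p with ⟨a, rfl⟩ | ⟨b, rfl⟩
    · exact hU₀ a
    · exact hU₁ b
  have hirr : IsIrreducible Z := isIrreducible_singleton.closure
  rw [hZuniv] at hirr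
  exact (irreducibleSpace_def _).mpr hirr

lemma isIntegral_curve [IsDomain B₀] [IsDomain B₁] [Nontrivial B₀₁] :
    IsIntegral (curve B₀ B₁ B₀₁) := by
  have := isReduced_curve B₀ B₁ B₀₁
  have := irreducibleSpace_curve B₀ B₁ B₀₁
  exact isIntegral_of_irreducibleSpace_of_isReduced _

lemma smooth_str [IsDomain B₀] [IsDomain B₁] [Algebra.Smooth k B₀] [Algebra.Smooth k B₁]
    [Module.Invertible B₀ Ω[B₀⁄k]] [Module.Invertible B₁ Ω[B₁⁄k]] :
    SmoothOfRelativeDimension 1 (str k B₀ B₁ B₀₁) := by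
  refine IsZariskiLocalAtSource.of_openCover (P := @SmoothOfRelativeDimension 1)
    (chartCover B₀ B₁ B₀₁) ?_
  intro i
  cases i
  · change SmoothOfRelativeDimension 1 (ι₀ B₀ B₁ B₀₁ ≫ str k B₀ B₁ B₀₁)
    rw [ι₀_str]
    exact smoothOfRelativeDimension_one_specMap k B₀
  · change SmoothOfRelativeDimension 1 (ι₁ B₀ B₁ B₀₁ ≫ str k B₀ B₁ B₀₁)
    rw [ι₁_str]
    exact smoothOfRelativeDimension_one_specMap k B₁

lemma compactSpace_curve : CompactSpace (curve B₀ B₁ B₀₁) := by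
  haveI : ∀ i, CompactSpace ((chartCover B₀ B₁ B₀₁).X i) := by
    intro i
    cases i
    · exact inferInstanceAs (CompactSpace (Spec (CommRingCat.of B₀)))
    · exact inferInstanceAs (CompactSpace (Spec (CommRingCat.of B₁)))
  haveI : Finite (chartCover B₀ B₁ B₀₁).I₀ := inferInstanceAs (Finite Bool)
  exact Scheme.OpenCover.compactSpace (chartCover B₀ B₁ B₀₁)

lemma isCompact_inf : IsCompact (X := curve B₀ B₁ B₀₁)
    ((U₀ B₀ B₁ B₀₁ : Set (curve B₀ B₁ B₀₁)) ∩ U₁ B₀ B₁ B₀₁) := by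
  have h : ((U₀ B₀ B₁ B₀₁ ⊓ U₁ B₀ B₁ B₀₁ : (curve B₀ B₁ B₀₁).Opens) : Set (curve B₀ B₁ B₀₁)) =
      Set.range (ι₀₁ B₀ B₁ B₀₁) := by
    rw [← opensRange_ι₀₁]
    rfl
  have h2 : IsCompact (Set.range (ι₀₁ B₀ B₁ B₀₁)) :=
    isCompact_range (ι₀₁ B₀ B₁ B₀₁).continuous
  rw [← h] at h2
  exact h2

lemma quasiSeparatedSpace_curve : QuasiSeparatedSpace (curve B₀ B₁ B₀₁) := by
  refine Scheme.quasiSeparatedSpace_of_isOpenCover
    (fun b : Bool => Bool.rec (U₀ B₀ B₁ B₀₁) (U₁ B₀ B₁ B₀₁) b) ?_ ?_ ?_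
  · rw [TopologicalSpace.IsOpenCover, eq_top_iff, ← U₀_sup_U₁ B₀ B₁ B₀₁]
    exact sup_le (le_iSup (fun b : Bool => (Bool.rec (U₀ B₀ B₁ B₀₁) (U₁ B₀ B₁ B₀₁) b :
      (curve B₀ B₁ B₀₁).Opens)) false)
      (le_iSup (fun b : Bool => (Bool.rec (U₀ B₀ B₁ B₀₁) (U₁ B₀ B₁ B₀₁) b :
      (curve B₀ B₁ B₀₁).Opens)) true)
  · intro i
    cases i
    · exact isAffineOpen_U₀ B₀ B₁ B₀₁
    · exact isAffineOpen_U₁ B₀ B₁ B₀₁
  · intro i j
    cases i <;> cases j
    · simpa using (isAffineOpen_U₀ B₀ B₁ B₀₁).isCompact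
    · exact isCompact_inf B₀ B₁ B₀₁
    · rw [Set.inter_comm]
      exact isCompact_inf B₀ B₁ B₀₁
    · simpa using (isAffineOpen_U₁ B₀ B₁ B₀₁).isCompact

lemma isProper_str (x : B₀) (y : B₁) [IsLocalization.Away x B₀₁] [IsLocalization.Away y B₀₁]
    (hxy : algebraMap B₀ B₀₁ x * algebraMap B₁ B₀₁ y = 1)
    (fin₀ : (Polynomial.aeval x : Polynomial k →ₐ[k] B₀).Finite)
    (fin₁ : (Polynomial.aeval y : Polynomial k →ₐ[k] B₁).Finite)
    [IsDomain B₀] [IsDomain B₁] [Algebra.Smooth k B₀] [Algebra.Smooth k B₁]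
    [Module.Invertible B₀ Ω[B₀⁄k]] [Module.Invertible B₁ Ω[B₁⁄k]] :
    IsProper (str k B₀ B₁ B₀₁) := by
  haveI := compactSpace_curve B₀ B₁ B₀₁
  haveI := quasiSeparatedSpace_curve B₀ B₁ B₀₁
  haveI := smooth_str k B₀ B₁ B₀₁
  haveI : QuasiCompact (str k B₀ B₁ B₀₁) := inferInstance
  haveI : QuasiSeparated (str k B₀ B₁ B₀₁) := inferInstance
  haveI : Smooth (str k B₀ B₁ B₀₁) := SmoothOfRelativeDimension.smooth 1 _
  haveI : LocallyOfFiniteType (str k B₀ B₁ B₀₁) := inferInstance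
  exact IsProper.of_valuativeCriterion _
    (valuativeCriterion_of_twoChart (curveTwoChart (k := k)) x y hxy fin₀ fin₁)

end

/-- **CURVE-SCHEME** (leaf of row S27): a curve chart is the two-chart presentation of a smooth
proper integral pointed curve. -/
theorem curveScheme (k : Type u) [Field k] : Stmt.CurveScheme k := by
  intro _ B₀ B₁ B₀₁ _ _ _ _ _ _ _ _ _ _ x y e hC
  haveI := hC.away₀
  haveI := hC.away₁
  haveI := hC.isDomain₀
  haveI := hC.isDomain₁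
  haveI := hC.smooth₀
  haveI := hC.smooth₁
  haveI := hC.omega₀
  haveI := hC.omega₁
  haveI : IsOpenImmersion (j₀ B₀ B₀₁) := IsOpenImmersion.of_isLocalization x
  haveI : IsOpenImmersion (j₁ B₁ B₀₁) := IsOpenImmersion.of_isLocalization y
  haveI : Nontrivial B₀₁ := H250.nontrivial_B01 hC
  refine ⟨curve B₀ B₁ B₀₁, str k B₀ B₁ B₀₁,
    isProper_str k B₀ B₁ B₀₁ x y hC.mul_eq_one hC.finite₀ hC.finite₁,
    smooth_str k B₀ B₁ B₀₁, isIntegral_curve B₀ B₁ B₀₁, eps k B₀ B₁ B₀₁ e,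
    { B₀ := B₀
      B₁ := B₁
      B₀₁ := B₀₁
      x := x
      y := y
      e := e
      isCurveChart := hC
      U₀ := U₀ B₀ B₁ B₀₁
      U₁ := U₁ B₀ B₁ B₀₁
      isAffine₀ := isAffineOpen_U₀ B₀ B₁ B₀₁
      isAffine₁ := isAffineOpen_U₁ B₀ B₁ B₀₁
      cover := U₀_sup_U₁ B₀ B₁ B₀₁
      i₀ := i₀ B₀ B₁ B₀₁
      i₁ := i₁ B₀ B₁ B₀₁
      i₀₁ := i₀₁ B₀ B₁ B₀₁
      i₀_str := i₀_str k B₀ B₁ B₀₁
      i₁_str := i₁_str k B₀ B₁ B₀₁
      i₀₁_res₀ := i₀₁_res₀ B₀ B₁ B₀₁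
      i₀₁_res₁ := i₀₁_res₁ B₀ B₁ B₀₁
      inf_eq₀ := inf_eq₀ B₀ B₁ B₀₁ x
      inf_eq₁ := inf_eq₁ B₀ B₁ B₀₁ y
      eps_mem := eps_mem k B₀ B₁ B₀₁ e
      e_eq := e_eq k B₀ B₁ B₀₁ e },
    AlgEquiv.refl, AlgEquiv.refl, AlgEquiv.refl, fun _ => rfl, fun _ => rfl⟩

end Fermat.Agent.S27.H866
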