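import Fermat.Agent.S27.H866.Pushout
import Fermat.Agent.S25.DefsDict

/-!
# Row S27, leaf SCHEME (helper866): the curve glued from a two-chart presentation

`curve B₀ B₁ B₀₁ = Spec B₀ ∪ Spec B₁` glued along `Spec B₀₁`, with its structure morphism
to `Spec k`, its two charts and the `ChartOf` dictionary data.
-/

set_option autoImplicit false

open CategoryTheory CategoryTheory.Limits AlgebraicGeometry Opposite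
open AlgebraicGeometry.RelPicard NeronModelInfra GoodReductionJacobian

universe u

namespace Fermat.Agent.S27.H866

open Fermat.Agent.S25

noncomputable section

variable (k : Type u) [Field k] (B₀ B₁ B₀₁ : Type u) [CommRing B₀] [CommRing B₁] [CommRing B₀₁]
  [Algebra k B₀] [Algebra k B₁] [Algebra k B₀₁] [Algebra B₀ B₀₁] [Algebra B₁ B₀₁]
  [IsScalarTower k B₀ B₀₁] [IsScalarTower k B₁ B₀₁]

/-- The open immersion `Spec B₀₁ ⟶ Spec B₀`. -/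
abbrev j₀ : Spec (CommRingCat.of B₀₁) ⟶ Spec (CommRingCat.of B₀) :=
  Spec.map (CommRingCat.ofHom (algebraMap B₀ B₀₁))

/-- The open immersion `Spec B₀₁ ⟶ Spec B₁`. -/
abbrev j₁ : Spec (CommRingCat.of B₀₁) ⟶ Spec (CommRingCat.of B₁) :=
  Spec.map (CommRingCat.ofHom (algebraMap B₁ B₀₁))

variable [IsOpenImmersion (j₀ B₀ B₀₁)] [IsOpenImmersion (j₁ B₁ B₀₁)]

/-- The glued curve. -/
def curve : Scheme.{u} := pushout (j₀ B₀ B₀₁) (j₁ B₁ B₀₁)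

/-- The first chart. -/
def ι₀ : Spec (CommRingCat.of B₀) ⟶ curve B₀ B₁ B₀₁ := pushout.inl _ _

/-- The second chart. -/
def ι₁ : Spec (CommRingCat.of B₁) ⟶ curve B₀ B₁ B₀₁ := pushout.inr _ _

instance : IsOpenImmersion (ι₀ B₀ B₁ B₀₁) := isOpenImmersion_pushout_inl _ _

instance : IsOpenImmersion (ι₁ B₀ B₁ B₀₁) := isOpenImmersion_pushout_inr _ _

lemma j₀_ι₀ : j₀ B₀ B₀₁ ≫ ι₀ B₀ B₁ B₀₁ = j₁ B₁ B₀₁ ≫ ι₁ B₀ B₁ B₀₁ := pushout.condition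

/-- The chart of the overlap. -/
def ι₀₁ : Spec (CommRingCat.of B₀₁) ⟶ curve B₀ B₁ B₀₁ := j₀ B₀ B₀₁ ≫ ι₀ B₀ B₁ B₀₁

instance : IsOpenImmersion (ι₀₁ B₀ B₁ B₀₁) := by
  unfold ι₀₁; infer_instance

lemma ι₀₁_eq₀ : ι₀₁ B₀ B₁ B₀₁ = j₀ B₀ B₀₁ ≫ ι₀ B₀ B₁ B₀₁ := rfl

lemma ι₀₁_eq₁ : ι₀₁ B₀ B₁ B₀₁ = j₁ B₁ B₀₁ ≫ ι₁ B₀ B₁ B₀₁ := j₀_ι₀ B₀ B₁ B₀₁

/-- The two charts as opens of the curve. -/
def U₀ : (curve B₀ B₁ B₀₁).Opens := (ι₀ B₀ B₁ B₀₁).opensRange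

/-- The two charts as opens of the curve. -/
def U₁ : (curve B₀ B₁ B₀₁).Opens := (ι₁ B₀ B₁ B₀₁).opensRange

lemma isAffineOpen_U₀ : IsAffineOpen (U₀ B₀ B₁ B₀₁) :=
  isAffineOpen_opensRange (ι₀ B₀ B₁ B₀₁)

lemma isAffineOpen_U₁ : IsAffineOpen (U₁ B₀ B₁ B₀₁) :=
  isAffineOpen_opensRange (ι₁ B₀ B₁ B₀₁)

lemma U₀_sup_U₁ : U₀ B₀ B₁ B₀₁ ⊔ U₁ B₀ B₁ B₀₁ = ⊤ :=
  pushout_opensRange_sup _ _

lemma opensRange_ι₀₁ : (ι₀₁ B₀ B₁ B₀₁).opensRange = U₀ B₀ B₁ B₀₁ ⊓ U₁ B₀ B₁ B₀₁ :=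
  pushout_opensRange_inf _ _

lemma curve_cases (p : curve B₀ B₁ B₀₁) :
    (∃ x, ι₀ B₀ B₁ B₀₁ x = p) ∨ (∃ y, ι₁ B₀ B₁ B₀₁ y = p) :=
  pushout_jointly_surjective _ _ p

/-- The structure morphism of the curve. -/
def str : curve B₀ B₁ B₀₁ ⟶ Spec (CommRingCat.of k) :=
  pushout.desc (Spec.map (CommRingCat.ofHom (algebraMap k B₀)))
    (Spec.map (CommRingCat.ofHom (algebraMap k B₁))) (by
      rw [← Spec.map_comp, ← Spec.map_comp, ← CommRingCat.ofHom_comp, ← CommRingCat.ofHom_comp,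
        ← IsScalarTower.algebraMap_eq, ← IsScalarTower.algebraMap_eq])

@[reassoc]
lemma ι₀_str : ι₀ B₀ B₁ B₀₁ ≫ str k B₀ B₁ B₀₁ = Spec.map (CommRingCat.ofHom (algebraMap k B₀)) :=
  pushout.inl_desc _ _ _

@[reassoc]
lemma ι₁_str : ι₁ B₀ B₁ B₀₁ ≫ str k B₀ B₁ B₀₁ = Spec.map (CommRingCat.ofHom (algebraMap k B₁)) :=
  pushout.inr_desc _ _ _

/-- The ring of functions of the first chart. -/
def i₀ : Γ(curve B₀ B₁ B₀₁, U₀ B₀ B₁ B₀₁) ≃+* B₀ :=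
  secEquiv (R := CommRingCat.of B₀) (ι₀ B₀ B₁ B₀₁) (U₀ B₀ B₁ B₀₁) rfl

/-- The ring of functions of the second chart. -/
def i₁ : Γ(curve B₀ B₁ B₀₁, U₁ B₀ B₁ B₀₁) ≃+* B₁ :=
  secEquiv (R := CommRingCat.of B₁) (ι₁ B₀ B₁ B₀₁) (U₁ B₀ B₁ B₀₁) rfl

/-- The ring of functions of the overlap. -/
def i₀₁ : Γ(curve B₀ B₁ B₀₁, U₀ B₀ B₁ B₀₁ ⊓ U₁ B₀ B₁ B₀₁) ≃+* B₀₁ :=
  secEquiv (R := CommRingCat.of B₀₁) (ι₀₁ B₀ B₁ B₀₁) _ (opensRange_ι₀₁ B₀ B₁ B₀₁)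

lemma i₀_str (a : k) :
    i₀ B₀ B₁ B₀₁ (sectionsStr (str k B₀ B₁ B₀₁) (U₀ B₀ B₁ B₀₁) a) = algebraMap k B₀ a := by
  have h := pullHom_str (R := CommRingCat.of B₀) (A := CommRingCat.of k) (ι₀ B₀ B₁ B₀₁)
    (str k B₀ B₁ B₀₁) (CommRingCat.ofHom (algebraMap k B₀)) (ι₀_str k B₀ B₁ B₀₁) (U₀ B₀ B₁ B₀₁)
    (top_le_preimage_of_opensRange_eq _ _ rfl)
  exact congrArg (fun φ => φ.hom a) h

lemma i₁_str (a : k) :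
    i₁ B₀ B₁ B₀₁ (sectionsStr (str k B₀ B₁ B₀₁) (U₁ B₀ B₁ B₀₁) a) = algebraMap k B₁ a := by
  have h := pullHom_str (R := CommRingCat.of B₁) (A := CommRingCat.of k) (ι₁ B₀ B₁ B₀₁)
    (str k B₀ B₁ B₀₁) (CommRingCat.ofHom (algebraMap k B₁)) (ι₁_str k B₀ B₁ B₀₁) (U₁ B₀ B₁ B₀₁)
    (top_le_preimage_of_opensRange_eq _ _ rfl)
  exact congrArg (fun φ => φ.hom a) h

lemma i₀₁_res₀ (f : Γ(curve B₀ B₁ B₀₁, U₀ B₀ B₁ B₀₁)) :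
    i₀₁ B₀ B₁ B₀₁ (resRing inf_le_left f) = algebraMap B₀ B₀₁ (i₀ B₀ B₁ B₀₁ f) := by
  have h1 := pullHom_res (R := CommRingCat.of B₀₁) (ι₀₁ B₀ B₁ B₀₁)
    (inf_le_left : U₀ B₀ B₁ B₀₁ ⊓ U₁ B₀ B₁ B₀₁ ≤ U₀ B₀ B₁ B₀₁)
    (top_le_preimage_of_opensRange_eq _ _ (opensRange_ι₀₁ B₀ B₁ B₀₁))
  have h2 := pullHom_comp (R := CommRingCat.of B₀) (R' := CommRingCat.of B₀₁) (ι₀ B₀ B₁ B₀₁)
    (CommRingCat.ofHom (algebraMap B₀ B₀₁)) (U₀ B₀ B₁ B₀₁)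
    (top_le_preimage_of_opensRange_eq _ _ rfl)
    ((top_le_preimage_of_opensRange_eq _ _ (opensRange_ι₀₁ B₀ B₁ B₀₁)).trans
      ((ι₀₁ B₀ B₁ B₀₁).preimage_mono inf_le_left))
  have h3 := h1.trans h2
  exact congrArg (fun φ => φ.hom f) h3

lemma i₀₁_res₁ (f : Γ(curve B₀ B₁ B₀₁, U₁ B₀ B₁ B₀₁)) :
    i₀₁ B₀ B₁ B₀₁ (resRing inf_le_right f) = algebraMap B₁ B₀₁ (i₁ B₀ B₁ B₀₁ f) := by
  have h1 := pullHom_res (R := CommRingCat.of B₀₁) (ι₀₁ B₀ B₁ B₀₁)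
    (inf_le_right : U₀ B₀ B₁ B₀₁ ⊓ U₁ B₀ B₁ B₀₁ ≤ U₁ B₀ B₁ B₀₁)
    (top_le_preimage_of_opensRange_eq _ _ (opensRange_ι₀₁ B₀ B₁ B₀₁))
  have h0 := pullHom_congr (ι₀₁_eq₁ B₀ B₁ B₀₁) (U₁ B₀ B₁ B₀₁)
    ((top_le_preimage_of_opensRange_eq _ _ (opensRange_ι₀₁ B₀ B₁ B₀₁)).trans
      ((ι₀₁ B₀ B₁ B₀₁).preimage_mono inf_le_right))
  have h2 := pullHom_comp (R := CommRingCat.of B₁) (R' := CommRingCat.of B₀₁) (ι₁ B₀ B₁ B₀₁)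
    (CommRingCat.ofHom (algebraMap B₁ B₀₁)) (U₁ B₀ B₁ B₀₁)
    (top_le_preimage_of_opensRange_eq _ _ rfl)
    (ι₀₁_eq₁ B₀ B₁ B₀₁ ▸ (top_le_preimage_of_opensRange_eq _ _ (opensRange_ι₀₁ B₀ B₁ B₀₁)).trans
      ((ι₀₁ B₀ B₁ B₀₁).preimage_mono inf_le_right))
  have h3 := h1.trans (h0.trans h2)
  exact congrArg (fun φ => φ.hom f) h3

lemma opensRange_specMap_away {R S : Type u} [CommRing R] [CommRing S] [Algebra R S] (r : R)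
    [IsLocalization.Away r S]
    [IsOpenImmersion (Spec.map (CommRingCat.ofHom (algebraMap R S)))] :
    (Spec.map (CommRingCat.ofHom (algebraMap R S))).opensRange = PrimeSpectrum.basicOpen r :=
  TopologicalSpace.Opens.ext (PrimeSpectrum.localization_away_comap_range S r)

lemma opensRange_congr {X Y : Scheme.{u}} {f g : X ⟶ Y} (h : f = g) [IsOpenImmersion f]
    [IsOpenImmersion g] : f.opensRange = g.opensRange := by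
  subst h; rfl

lemma opensRange_ι₀₁_eq₀ (x : B₀) [IsLocalization.Away x B₀₁] :
    (ι₀₁ B₀ B₁ B₀₁).opensRange = ι₀ B₀ B₁ B₀₁ ''ᵁ (PrimeSpectrum.basicOpen x) := by
  have h1 : (ι₀₁ B₀ B₁ B₀₁).opensRange = (j₀ B₀ B₀₁ ≫ ι₀ B₀ B₁ B₀₁).opensRange := rfl
  rw [h1, Scheme.Hom.opensRange_comp, opensRange_specMap_away x]

lemma opensRange_ι₀₁_eq₁ (y : B₁) [IsLocalization.Away y B₀₁] :
    (ι₀₁ B₀ B₁ B₀₁).opensRange = ι₁ B₀ B₁ B₀₁ ''ᵁ (PrimeSpectrum.basicOpen y) := by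
  have h1 : (ι₀₁ B₀ B₁ B₀₁).opensRange = (j₁ B₁ B₀₁ ≫ ι₁ B₀ B₁ B₀₁).opensRange :=
    opensRange_congr (ι₀₁_eq₁ B₀ B₁ B₀₁)
  rw [h1, Scheme.Hom.opensRange_comp, opensRange_specMap_away y]

lemma inf_eq₀ (x : B₀) [IsLocalization.Away x B₀₁] :
    U₀ B₀ B₁ B₀₁ ⊓ U₁ B₀ B₁ B₀₁ = (curve B₀ B₁ B₀₁).basicOpen ((i₀ B₀ B₁ B₀₁).symm x) := by
  have h1 := basicOpen_secEquiv_symm (R := CommRingCat.of B₀) (ι₀ B₀ B₁ B₀₁) (U₀ B₀ B₁ B₀₁) rfl x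
  rw [i₀, h1, ← opensRange_ι₀₁]
  exact opensRange_ι₀₁_eq₀ B₀ B₁ B₀₁ x

lemma inf_eq₁ (y : B₁) [IsLocalization.Away y B₀₁] :
    U₀ B₀ B₁ B₀₁ ⊓ U₁ B₀ B₁ B₀₁ = (curve B₀ B₁ B₀₁).basicOpen ((i₁ B₀ B₁ B₀₁).symm y) := by
  have h1 := basicOpen_secEquiv_symm (R := CommRingCat.of B₁) (ι₁ B₀ B₁ B₀₁) (U₁ B₀ B₁ B₀₁) rfl y
  rw [i₁, h1, ← opensRange_ι₀₁]
  exact opensRange_ι₀₁_eq₁ B₀ B₁ B₀₁ y

/-- The marked point. -/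
def eps (e : B₁ →ₐ[k] k) : SchemeHomOver (𝟙 (Spec (CommRingCat.of k))) (str k B₀ B₁ B₀₁) :=
  ⟨Spec.map (CommRingCat.ofHom (e : B₁ →+* k)) ≫ ι₁ B₀ B₁ B₀₁, by
    rw [Category.assoc, ι₁_str, ← Spec.map_comp, ← CommRingCat.ofHom_comp]
    have : (e : B₁ →+* k).comp (algebraMap k B₁) = RingHom.id k := by
      ext a; simp
    rw [this]
    exact Spec.map_id _⟩

lemma eps_mem (e : B₁ →ₐ[k] k) : (eps k B₀ B₁ B₀₁ e).1 ⁻¹ᵁ U₁ B₀ B₁ B₀₁ = ⊤ := by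
  rw [eq_top_iff]
  intro p _
  exact ⟨_, rfl⟩

lemma e_eq (e : B₁ →ₐ[k] k) (f : Γ(curve B₀ B₁ B₀₁, U₁ B₀ B₁ B₀₁)) :
    e (i₁ B₀ B₁ B₀₁ f) =
      evalAt (str k B₀ B₁ B₀₁) (eps k B₀ B₁ B₀₁ e) (U₁ B₀ B₁ B₀₁) (eps_mem k B₀ B₁ B₀₁ e) f := by
  have h2 := pullHom_comp (R := CommRingCat.of B₁) (R' := CommRingCat.of k) (ι₁ B₀ B₁ B₀₁)
    (CommRingCat.ofHom (e : B₁ →+* k)) (U₁ B₀ B₁ B₀₁)
    (top_le_preimage_of_opensRange_eq _ _ rfl) (le_of_eq (eps_mem k B₀ B₁ B₀₁ e).symm)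
  exact (congrArg (fun φ => φ.hom f) h2).symm


end

end Fermat.Agent.S27.H866
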