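import Fermat.Agent.S27.H866.Curve

/-!
# Row S27, leaf SCHEME (helper866): the valuative criterion for a two-chart curve
-/

set_option autoImplicit false
set_option linter.style.haveILetI false
set_option linter.unusedSectionVars false

open CategoryTheory CategoryTheory.Limits AlgebraicGeometry Opposite Polynomial

universe u

namespace Fermat.Agent.S27.H866

noncomputable section

section Alg

variable {k B R K : Type u} [CommRing k] [CommRing B] [Algebra k B]
  [CommRing R] [IsDomain R] [ValuationRing R] [Field K] [Algebra R K] [IsFractionRing R K]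

/-- A ring map from `B` (finite over `k[x]`) to the fraction field of a valuation ring `R`
which maps `k` and `x` into `R` maps `B` into `R`. -/
lemma exists_factor_of_finite (x : B) (hfin : (Polynomial.aeval x : k[X] →ₐ[k] B).Finite)
    (α : B →+* K) (κ : k →+* R)
    (hκ : α.comp (algebraMap k B) = (algebraMap R K).comp κ)
    (hx : ∃ r : R, algebraMap R K r = α x) :
    ∃ β : B →+* R, (algebraMap R K).comp β = α := by
  obtain ⟨r, hr⟩ := hx
  have hint : (Polynomial.aeval x : k[X] →ₐ[k] B).toRingHom.IsIntegral :=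
    RingHom.Finite.to_isIntegral hfin
  let ψ : k[X] →+* R := Polynomial.eval₂RingHom κ r
  have hψ : α.comp (Polynomial.aeval x : k[X] →ₐ[k] B).toRingHom = (algebraMap R K).comp ψ := by
    apply Polynomial.ringHom_ext
    · intro a
      have := congrArg (fun f => f a) hκ
      simpa [ψ] using this
    · simp [ψ, hr]
  have hmem : ∀ b : B, ∃ s : R, algebraMap R K s = α b := by
    intro b
    obtain ⟨p, hp, hpb⟩ := hint b
    have h1 : Polynomial.eval₂ (α.comp (Polynomial.aeval x : k[X] →ₐ[k] B).toRingHom) (α b) p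
        = 0 := by
      rw [← Polynomial.hom_eval₂, hpb, map_zero]
    rw [hψ, ← Polynomial.eval₂_map] at h1
    have h2 : IsIntegral R (α b) := ⟨p.map ψ, hp.map ψ, h1⟩
    exact IsIntegrallyClosed.isIntegral_iff.mp h2
  have hinj : Function.Injective (algebraMap R K) := IsFractionRing.injective R K
  choose β' hβ' using hmem
  refine ⟨{ toFun := β', map_one' := ?_, map_mul' := ?_, map_zero' := ?_, map_add' := ?_ }, ?_⟩
  · apply hinj; rw [hβ', map_one, map_one]
  · intro a b; apply hinj; rw [hβ', map_mul, map_mul, hβ', hβ']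
  · apply hinj; rw [hβ', map_zero, map_zero]
  · intro a b; apply hinj; rw [hβ', map_add, map_add, hβ', hβ']
  · ext b; exact hβ' b

end Alg

section SpecLemmas

variable {A B D : Type u} [CommRing A] [CommRing B] [CommRing D]

lemma specMap_comp_ofHom (f : A →+* B) (g : B →+* D) :
    Spec.map (CommRingCat.ofHom g) ≫ Spec.map (CommRingCat.ofHom f) =
      Spec.map (CommRingCat.ofHom (g.comp f)) := by
  rw [← Spec.map_comp, ← CommRingCat.ofHom_comp]

@[reassoc]
lemma specMap_comp_ofHom' {X : Scheme.{u}} (f : A →+* B) (g : B →+* D)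
    (h : Spec (CommRingCat.of A) ⟶ X) :
    Spec.map (CommRingCat.ofHom g) ≫ Spec.map (CommRingCat.ofHom f) ≫ h =
      Spec.map (CommRingCat.ofHom (g.comp f)) ≫ h := by
  rw [← Category.assoc, specMap_comp_ofHom]

lemma ofHom_eq_of_specMap_eq {f g : A →+* B}
    (h : Spec.map (CommRingCat.ofHom f) = Spec.map (CommRingCat.ofHom g)) : f = g := by
  have := Spec.map_injective h
  exact congrArg CommRingCat.Hom.hom this

/-- A morphism from the spectrum of a local ring whose closed point lands in the range of an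
open immersion factors through it. -/
lemma range_subset_of_closedPoint [IsLocalRing A] {X Y : Scheme.{u}}
    (l : Spec (CommRingCat.of A) ⟶ Y) (ι : X ⟶ Y) [IsOpenImmersion ι]
    (h : l (IsLocalRing.closedPoint A) ∈ Set.range ι) : Set.range l ⊆ Set.range ι := by
  rintro _ ⟨p, rfl⟩
  have h1 : p ⤳ IsLocalRing.closedPoint A := IsLocalRing.specializes_closedPoint p
  have h2 : l p ⤳ l (IsLocalRing.closedPoint A) := h1.map l.continuous
  exact h2.mem_open ι.isOpenEmbedding.isOpen_range h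

end SpecLemmas

variable (k : Type u) [Field k] (B₀ B₁ B₀₁ : Type u) [CommRing B₀] [CommRing B₁] [CommRing B₀₁]
  [Algebra k B₀] [Algebra k B₁] [Algebra k B₀₁] [Algebra B₀ B₀₁] [Algebra B₁ B₀₁]
  [IsScalarTower k B₀ B₀₁] [IsScalarTower k B₁ B₀₁]

/-- An abstract scheme with a two-chart presentation (so that the two charts can be swapped). -/
structure TwoChart {C : Scheme.{u}} (c : C ⟶ Spec (CommRingCat.of k)) where
  /-- first chart -/
  ι₀ : Spec (CommRingCat.of B₀) ⟶ C
  /-- second chart -/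
  ι₁ : Spec (CommRingCat.of B₁) ⟶ C
  open₀ : IsOpenImmersion ι₀
  open₁ : IsOpenImmersion ι₁
  glue : j₀ B₀ B₀₁ ≫ ι₀ = j₁ B₁ B₀₁ ≫ ι₁
  str₀ : ι₀ ≫ c = Spec.map (CommRingCat.ofHom (algebraMap k B₀))
  str₁ : ι₁ ≫ c = Spec.map (CommRingCat.ofHom (algebraMap k B₁))
  cover : ∀ p : C, (∃ a, ι₀ a = p) ∨ (∃ b, ι₁ b = p)
  inter : ∀ a b, ι₀ a = ι₁ b → ∃ z, j₀ B₀ B₀₁ z = a ∧ j₁ B₁ B₀₁ z = b

variable {k B₀ B₁ B₀₁}

/-- Swap the two charts. -/
def TwoChart.symm {C : Scheme.{u}} {c : C ⟶ Spec (CommRingCat.of k)}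
    (T : TwoChart k B₀ B₁ B₀₁ c) : TwoChart k B₁ B₀ B₀₁ c where
  ι₀ := T.ι₁
  ι₁ := T.ι₀
  open₀ := T.open₁
  open₁ := T.open₀
  glue := T.glue.symm
  str₀ := T.str₁
  str₁ := T.str₀
  cover p := (T.cover p).symm
  inter a b h := by
    obtain ⟨z, h1, h2⟩ := T.inter b a h.symm
    exact ⟨z, h2, h1⟩

/-- The two-chart presentation of the glued curve. -/
def curveTwoChart [IsOpenImmersion (j₀ B₀ B₀₁)] [IsOpenImmersion (j₁ B₁ B₀₁)] :
    TwoChart k B₀ B₁ B₀₁ (str k B₀ B₁ B₀₁) where
  ι₀ := ι₀ B₀ B₁ B₀₁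
  ι₁ := ι₁ B₀ B₁ B₀₁
  open₀ := inferInstance
  open₁ := inferInstance
  glue := j₀_ι₀ B₀ B₁ B₀₁
  str₀ := ι₀_str k B₀ B₁ B₀₁
  str₁ := ι₁_str k B₀ B₁ B₀₁
  cover := curve_cases B₀ B₁ B₀₁
  inter _ _ h := (pushout_inl_eq_inr_iff _ _).mp h

section Valuative

variable {C : Scheme.{u}} {c : C ⟶ Spec (CommRingCat.of k)} (T : TwoChart k B₀ B₁ B₀₁ c)

/-- A morphism from the spectrum of a local ring factors through one of the two charts. -/
lemma exists_factor_local {A : Type u} [CommRing A] [IsLocalRing A]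
    (l : Spec (CommRingCat.of A) ⟶ C) :
    (∃ β : B₀ →+* A, l = Spec.map (CommRingCat.ofHom β) ≫ T.ι₀) ∨
      (∃ β : B₁ →+* A, l = Spec.map (CommRingCat.ofHom β) ≫ T.ι₁) := by
  haveI := T.open₀
  haveI := T.open₁
  rcases T.cover (l (IsLocalRing.closedPoint A)) with ⟨a, ha⟩ | ⟨b, hb⟩
  · left
    have h := range_subset_of_closedPoint l T.ι₀ ⟨a, ha⟩
    refine ⟨(Spec.preimage (IsOpenImmersion.lift T.ι₀ l h)).hom, ?_⟩
    rw [CommRingCat.ofHom_hom, Spec.map_preimage, IsOpenImmersion.lift_fac]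
  · right
    have h := range_subset_of_closedPoint l T.ι₁ ⟨b, hb⟩
    refine ⟨(Spec.preimage (IsOpenImmersion.lift T.ι₁ l h)).hom, ?_⟩
    rw [CommRingCat.ofHom_hom, Spec.map_preimage, IsOpenImmersion.lift_fac]

variable {R K : Type u} [CommRing R] [IsDomain R] [ValuationRing R] [Field K] [Algebra R K]
  [IsFractionRing R K]

/-- Two lifts through the same chart with the same generic point agree. -/
lemma eq_of_factor_same (β β' : B₀ →+* R)
    (h : Spec.map (CommRingCat.ofHom (algebraMap R K)) ≫ Spec.map (CommRingCat.ofHom β) ≫ T.ι₀ =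
      Spec.map (CommRingCat.ofHom (algebraMap R K)) ≫ Spec.map (CommRingCat.ofHom β') ≫ T.ι₀) :
    β = β' := by
  haveI := T.open₀
  rw [specMap_comp_ofHom', specMap_comp_ofHom', cancel_mono] at h
  have h2 := ofHom_eq_of_specMap_eq h
  ext b
  exact IsFractionRing.injective R K (congrArg (fun f => f b) h2)

/-- A lift through the first chart whose generic point lies in the second chart also factors
through the second chart, if some lift through the second chart has the same generic point. -/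
lemma exists_factor_switch (x : B₀) (y : B₁) [IsLocalization.Away x B₀₁]
    (hxy : algebraMap B₀ B₀₁ x * algebraMap B₁ B₀₁ y = 1)
    (β : B₀ →+* R) (β' : B₁ →+* R)
    (h : Spec.map (CommRingCat.ofHom (algebraMap R K)) ≫ Spec.map (CommRingCat.ofHom β) ≫ T.ι₀ =
      Spec.map (CommRingCat.ofHom (algebraMap R K)) ≫ Spec.map (CommRingCat.ofHom β') ≫ T.ι₁) :
    ∃ β'' : B₁ →+* R,
      Spec.map (CommRingCat.ofHom β) ≫ T.ι₀ = Spec.map (CommRingCat.ofHom β'') ≫ T.ι₁ := by
  haveI := T.open₀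
  haveI := T.open₁
  haveI : IsOpenImmersion (j₀ B₀ B₀₁) := IsOpenImmersion.of_isLocalization x
  rw [specMap_comp_ofHom', specMap_comp_ofHom'] at h
  set g : Spec (CommRingCat.of K) ⟶ Spec (CommRingCat.of B₀) :=
    Spec.map (CommRingCat.ofHom ((algebraMap R K).comp β)) with hg
  set g' : Spec (CommRingCat.of K) ⟶ Spec (CommRingCat.of B₁) :=
    Spec.map (CommRingCat.ofHom ((algebraMap R K).comp β')) with hg'
  -- the generic point lies in the overlap
  have hpt : T.ι₀ (g (IsLocalRing.closedPoint K)) = T.ι₁ (g' (IsLocalRing.closedPoint K)) := by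
    rw [← Scheme.Hom.comp_apply, ← Scheme.Hom.comp_apply, h]
  obtain ⟨z, hz, -⟩ := T.inter _ _ hpt
  have hrange := range_subset_of_closedPoint g (j₀ B₀ B₀₁) ⟨z, hz⟩
  set ρ : B₀₁ →+* K := (Spec.preimage (IsOpenImmersion.lift (j₀ B₀ B₀₁) g hrange)).hom with hρ
  have hρ₀ : Spec.map (CommRingCat.ofHom ρ) ≫ j₀ B₀ B₀₁ = g := by
    rw [hρ, CommRingCat.ofHom_hom, Spec.map_preimage, IsOpenImmersion.lift_fac]
  have hρ₁ : Spec.map (CommRingCat.ofHom ρ) ≫ j₁ B₁ B₀₁ = g' := by
    rw [← cancel_mono T.ι₁, Category.assoc, ← T.glue, ← Category.assoc, hρ₀, h]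
  have e₀ : ρ.comp (algebraMap B₀ B₀₁) = (algebraMap R K).comp β := by
    apply ofHom_eq_of_specMap_eq
    rw [← specMap_comp_ofHom]
    exact hρ₀
  have e₁ : ρ.comp (algebraMap B₁ B₀₁) = (algebraMap R K).comp β' := by
    apply ofHom_eq_of_specMap_eq
    rw [← specMap_comp_ofHom]
    exact hρ₁
  have hu : β x * β' y = 1 := by
    apply IsFractionRing.injective R K
    have h0 : algebraMap R K (β x) = ρ (algebraMap B₀ B₀₁ x) := (congrArg (fun f => f x) e₀).symm
    have h1 : algebraMap R K (β' y) = ρ (algebraMap B₁ B₀₁ y) :=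
      (congrArg (fun f => f y) e₁).symm
    rw [map_mul, h0, h1, ← map_mul, hxy, map_one, map_one]
  have hux : IsUnit (β x) := IsUnit.of_mul_eq_one _ hu
  refine ⟨(IsLocalization.Away.lift x hux).comp (algebraMap B₁ B₀₁), ?_⟩
  rw [← specMap_comp_ofHom, Category.assoc]
  have h3 : Spec.map (CommRingCat.ofHom (algebraMap B₁ B₀₁)) ≫ T.ι₁ =
      Spec.map (CommRingCat.ofHom (algebraMap B₀ B₀₁)) ≫ T.ι₀ := T.glue.symm
  rw [h3, ← Category.assoc, specMap_comp_ofHom, IsLocalization.Away.lift_comp]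


/-- Existence part: a `K`-point in the first chart extends to an `R`-point. -/
lemma exists_lift_of_chart (x : B₀) (y : B₁) [IsLocalization.Away x B₀₁]
    (hxy : algebraMap B₀ B₀₁ x * algebraMap B₁ B₀₁ y = 1)
    (fin₀ : (Polynomial.aeval x : k[X] →ₐ[k] B₀).Finite)
    (fin₁ : (Polynomial.aeval y : k[X] →ₐ[k] B₁).Finite)
    (κ : k →+* R) (α : B₀ →+* K)
    (hκ : α.comp (algebraMap k B₀) = (algebraMap R K).comp κ) :
    ∃ l : Spec (CommRingCat.of R) ⟶ C,
      Spec.map (CommRingCat.ofHom (algebraMap R K)) ≫ l =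
          Spec.map (CommRingCat.ofHom α) ≫ T.ι₀ ∧
        l ≫ c = Spec.map (CommRingCat.ofHom κ) := by
  have hinj : Function.Injective (algebraMap R K) := IsFractionRing.injective R K
  by_cases hx : ∃ r : R, algebraMap R K r = α x
  · obtain ⟨β, hβ⟩ := exists_factor_of_finite x fin₀ α κ hκ hx
    refine ⟨Spec.map (CommRingCat.ofHom β) ≫ T.ι₀, ?_, ?_⟩
    · rw [specMap_comp_ofHom', hβ]
    · rw [Category.assoc, T.str₀, specMap_comp_ofHom]
      have : β.comp (algebraMap k B₀) = κ := by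
        ext a
        apply hinj
        have h1 : α (algebraMap k B₀ a) = algebraMap R K (κ a) := congrArg (fun f => f a) hκ
        have h2 : algebraMap R K (β (algebraMap k B₀ a)) = α (algebraMap k B₀ a) :=
          congrArg (fun f => f (algebraMap k B₀ a)) hβ
        rw [RingHom.comp_apply, h2, h1]
      rw [this]
  · have hx' : ∃ r : R, algebraMap R K r = (α x)⁻¹ := by
      rcases ValuationRing.isInteger_or_isInteger R (α x) with h | h
      · exact absurd h hx
      · exact h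
    have hne : α x ≠ 0 := by
      intro h0
      exact hx ⟨0, by rw [map_zero, h0]⟩
    have hu : IsUnit (α x) := isUnit_iff_ne_zero.mpr hne
    set α₀₁ : B₀₁ →+* K := IsLocalization.Away.lift x hu with hα₀₁
    have h01 : α₀₁.comp (algebraMap B₀ B₀₁) = α := IsLocalization.Away.lift_comp x hu
    set α₁ : B₁ →+* K := α₀₁.comp (algebraMap B₁ B₀₁) with hα₁
    have hy : α₁ y = (α x)⁻¹ := by
      have h1 : α₀₁ (algebraMap B₀ B₀₁ x) * α₀₁ (algebraMap B₁ B₀₁ y) = 1 := by
        rw [← map_mul, hxy, map_one]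
      have h2 : α₀₁ (algebraMap B₀ B₀₁ x) = α x := congrArg (fun f => f x) h01
      rw [h2] at h1
      exact eq_inv_of_mul_eq_one_right h1
    have hκ₁ : α₁.comp (algebraMap k B₁) = (algebraMap R K).comp κ := by
      rw [← hκ, ← h01, hα₁, RingHom.comp_assoc, RingHom.comp_assoc,
        ← IsScalarTower.algebraMap_eq, ← IsScalarTower.algebraMap_eq]
    obtain ⟨β, hβ⟩ := exists_factor_of_finite y fin₁ α₁ κ hκ₁ (by rw [hy]; exact hx')
    have h3 : Spec.map (CommRingCat.ofHom (algebraMap B₁ B₀₁)) ≫ T.ι₁ =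
        Spec.map (CommRingCat.ofHom (algebraMap B₀ B₀₁)) ≫ T.ι₀ := T.glue.symm
    refine ⟨Spec.map (CommRingCat.ofHom β) ≫ T.ι₁, ?_, ?_⟩
    · rw [specMap_comp_ofHom', hβ, hα₁, ← specMap_comp_ofHom, Category.assoc, h3,
        ← Category.assoc, specMap_comp_ofHom, h01]
    · rw [Category.assoc, T.str₁, specMap_comp_ofHom]
      have : β.comp (algebraMap k B₁) = κ := by
        ext a
        apply hinj
        have h1 : α₁ (algebraMap k B₁ a) = algebraMap R K (κ a) := congrArg (fun f => f a) hκ₁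
        have h2 : algebraMap R K (β (algebraMap k B₁ a)) = α₁ (algebraMap k B₁ a) :=
          congrArg (fun f => f (algebraMap k B₁ a)) hβ
        rw [RingHom.comp_apply, h2, h1]
      rw [this]

/-- Uniqueness part: two `R`-points with the same generic point agree. -/
lemma lift_unique (T : TwoChart k B₀ B₁ B₀₁ c) (x : B₀) (y : B₁) [IsLocalization.Away x B₀₁]
    (hxy : algebraMap B₀ B₀₁ x * algebraMap B₁ B₀₁ y = 1)
    (l l' : Spec (CommRingCat.of R) ⟶ C)
    (h : Spec.map (CommRingCat.ofHom (algebraMap R K)) ≫ l =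
      Spec.map (CommRingCat.ofHom (algebraMap R K)) ≫ l') : l = l' := by
  rcases exists_factor_local T l with ⟨β, rfl⟩ | ⟨β, rfl⟩ <;>
    rcases exists_factor_local T l' with ⟨β', rfl⟩ | ⟨β', rfl⟩
  · rw [eq_of_factor_same T β β' h]
  · obtain ⟨β'', hβ''⟩ := exists_factor_switch T x y hxy β β' h
    rw [hβ''] at h ⊢
    rw [eq_of_factor_same T.symm β'' β' h]
  · obtain ⟨β'', hβ''⟩ := exists_factor_switch T x y hxy β' β h.symm
    rw [hβ''] at h ⊢
    rw [eq_of_factor_same T.symm β β'' h]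
  · rw [eq_of_factor_same T.symm β β' h]

/-- The valuative criterion for a two-chart curve. -/
theorem valuativeCriterion_of_twoChart (T : TwoChart k B₀ B₁ B₀₁ c) (x : B₀) (y : B₁)
    [IsLocalization.Away x B₀₁]
    [IsLocalization.Away y B₀₁]
    (hxy : algebraMap B₀ B₀₁ x * algebraMap B₁ B₀₁ y = 1)
    (fin₀ : (Polynomial.aeval x : k[X] →ₐ[k] B₀).Finite)
    (fin₁ : (Polynomial.aeval y : k[X] →ₐ[k] B₁).Finite) : ValuativeCriterion c := by
  rw [ValuativeCriterion.iff]
  refine ⟨?_, ?_⟩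
  · intro S
    have hκ' : Spec.map (CommRingCat.ofHom (Spec.preimage S.i₂).hom) = S.i₂ := by
      rw [CommRingCat.ofHom_hom, Spec.map_preimage]
    have hw := S.commSq.w
    rcases exists_factor_local T S.i₁ with ⟨α, hα⟩ | ⟨α, hα⟩
    · have hκ : α.comp (algebraMap k B₀) = (algebraMap S.R S.K).comp (Spec.preimage S.i₂).hom := by
        apply ofHom_eq_of_specMap_eq
        rw [← specMap_comp_ofHom, ← specMap_comp_ofHom, hκ', ← hw, hα, Category.assoc, T.str₀]
      obtain ⟨l, hl₁, hl₂⟩ := exists_lift_of_chart T x y hxy fin₀ fin₁ _ α hκ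
      exact ⟨⟨{ l := l, fac_left := hl₁.trans hα.symm, fac_right := hl₂.trans hκ' }⟩⟩
    · have hκ : α.comp (algebraMap k B₁) = (algebraMap S.R S.K).comp (Spec.preimage S.i₂).hom := by
        apply ofHom_eq_of_specMap_eq
        rw [← specMap_comp_ofHom, ← specMap_comp_ofHom, hκ', ← hw, hα, Category.assoc, T.str₁]
      have hyx : algebraMap B₁ B₀₁ y * algebraMap B₀ B₀₁ x = 1 := by rw [mul_comm]; exact hxy
      obtain ⟨l, hl₁, hl₂⟩ := exists_lift_of_chart T.symm y x hyx fin₁ fin₀ _ α hκ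
      exact ⟨⟨{ l := l, fac_left := hl₁.trans hα.symm, fac_right := hl₂.trans hκ' }⟩⟩
  · intro S
    constructor
    rintro ⟨l, hl, -⟩ ⟨l', hl', -⟩
    have := lift_unique T x y hxy l l' (hl.trans hl'.symm)
    subst this
    rfl

end Valuative

end

end Fermat.Agent.S27.H866
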