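import Mathlib

/-!
# Row S27, leaf SCHEME (helper866): gluing two affine schemes along a common open

Mathlib-only.  Part 1: pull-back of functions along a chart `j : Spec R ⟶ X`
(`pullHom`, `secEquiv`).  Part 2: the pushout of two open immersions `X ⟵ Z ⟶ Y` of schemes
(existence, the two inclusions are open immersions, points).
-/

set_option autoImplicit false

open CategoryTheory CategoryTheory.Limits AlgebraicGeometry Opposite

universe u

namespace Fermat.Agent.S27.H866

noncomputable section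

section PullHom
variable {X : Scheme.{u}} {R R' : CommRingCat.{u}}

lemma appLE_top_top {Y Z : Scheme.{u}} (j : Z ⟶ Y) (h : (⊤ : Z.Opens) ≤ j ⁻¹ᵁ ⊤) :
    j.appLE ⊤ ⊤ h = j.appTop := by
  rw [Scheme.Hom.appTop, Scheme.Hom.app_eq_appLE]
  rfl

/-- Pullback of functions on `V` along `j : Spec R ⟶ X` when `j` lands in `V`. -/
def pullHom (j : Spec R ⟶ X) (V : X.Opens) (h : ⊤ ≤ j ⁻¹ᵁ V) : Γ(X, V) ⟶ R :=
  j.appLE V ⊤ h ≫ (Scheme.ΓSpecIso R).hom

lemma pullHom_res (j : Spec R ⟶ X) {V V' : X.Opens} (hVV' : V' ≤ V) (h' : ⊤ ≤ j ⁻¹ᵁ V') :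
    X.presheaf.map (homOfLE hVV').op ≫ pullHom j V' h' =
      pullHom j V (h'.trans (j.preimage_mono hVV')) := by
  rw [pullHom, pullHom, Scheme.Hom.map_appLE_assoc]

lemma pullHom_comp (j : Spec R ⟶ X) (φ : R ⟶ R') (V : X.Opens) (h : ⊤ ≤ j ⁻¹ᵁ V)
    (h' : ⊤ ≤ (Spec.map φ ≫ j) ⁻¹ᵁ V) :
    pullHom (Spec.map φ ≫ j) V h' = pullHom j V h ≫ φ := by
  rw [pullHom, pullHom, Category.assoc, ← Scheme.ΓSpecIso_naturality, ← Category.assoc]
  congr 1

lemma pullHom_congr {j j' : Spec R ⟶ X} (e : j = j') (V : X.Opens) (h : ⊤ ≤ j ⁻¹ᵁ V) :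
    pullHom j V h = pullHom j' V (e ▸ h) := by
  subst e; rfl

/-- Compatibility with a structure morphism. -/
lemma pullHom_str {A : CommRingCat.{u}} (j : Spec R ⟶ X) (c : X ⟶ Spec A) (ψ : A ⟶ R)
    (hc : j ≫ c = Spec.map ψ) (V : X.Opens) (h : ⊤ ≤ j ⁻¹ᵁ V) :
    (Scheme.ΓSpecIso A).inv ≫ c.appTop ≫ X.presheaf.map (homOfLE (le_top : V ≤ ⊤)).op ≫
      pullHom j V h = ψ := by
  rw [pullHom_res, pullHom, ← Category.assoc c.appTop, appLE_top_top,
    ← Scheme.Hom.comp_appTop, hc, Scheme.ΓSpecIso_naturality, Iso.inv_hom_id_assoc]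

lemma top_le_preimage_of_opensRange_eq {Y Z : Scheme.{u}} (j : Z ⟶ Y) [IsOpenImmersion j]
    (V : Y.Opens)
    (hV : j.opensRange = V) : (⊤ : Z.Opens) ≤ j ⁻¹ᵁ V := by
  subst hV
  intro x _
  exact ⟨x, rfl⟩

/-- For an open immersion with range `V`, `pullHom` is an isomorphism. -/
lemma isIso_pullHom (j : Spec R ⟶ X) [IsOpenImmersion j] (V : X.Opens) (hV : j.opensRange = V) :
    IsIso (pullHom j V (top_le_preimage_of_opensRange_eq j V hV)) := by
  subst hV
  have h1 : j.appLE j.opensRange ⊤ (top_le_preimage_of_opensRange_eq j _ rfl) =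
      X.presheaf.map (eqToHom j.image_top_eq_opensRange).op ≫ (j.appIso ⊤).hom := by
    rw [Scheme.Hom.appIso_hom', Scheme.Hom.map_appLE]
  rw [pullHom, h1]
  infer_instance

/-- The ring isomorphism `Γ(X, V) ≃+* R` of a chart `j : Spec R ⟶ X` with range `V`. -/
def secEquiv (j : Spec R ⟶ X) [IsOpenImmersion j] (V : X.Opens) (hV : j.opensRange = V) :
    Γ(X, V) ≃+* R :=
  haveI := isIso_pullHom j V hV
  (asIso (pullHom j V (top_le_preimage_of_opensRange_eq j V hV))).commRingCatIsoToRingEquiv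

lemma secEquiv_apply (j : Spec R ⟶ X) [IsOpenImmersion j] (V : X.Opens) (hV : j.opensRange = V)
    (s : Γ(X, V)) :
    secEquiv j V hV s = (pullHom j V (top_le_preimage_of_opensRange_eq j V hV)).hom s := rfl


lemma secEquiv_symm_apply (j : Spec R ⟶ X) [IsOpenImmersion j] (V : X.Opens)
    (hV : j.opensRange = V) (r : R) :
    (pullHom j V (top_le_preimage_of_opensRange_eq j V hV)).hom ((secEquiv j V hV).symm r) = r :=
  (secEquiv j V hV).apply_symm_apply r

/-- The preimage under `j` of the basic open of a function on `V`. -/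
lemma preimage_basicOpen_eq (j : Spec R ⟶ X) (V : X.Opens) (h : ⊤ ≤ j ⁻¹ᵁ V) (s : Γ(X, V)) :
    j ⁻¹ᵁ X.basicOpen s = PrimeSpectrum.basicOpen ((pullHom j V h).hom s) := by
  have h1 : (Spec R).basicOpen ((j.appLE V ⊤ h).hom s) =
      PrimeSpectrum.basicOpen ((pullHom j V h).hom s) :=
    basicOpen_eq_of_affine' _
  rw [← h1, Scheme.preimage_basicOpen]
  have h2 : (j.appLE V ⊤ h).hom s =
      ((Spec R).presheaf.map (homOfLE h).op).hom ((j.app V).hom s) := rfl
  rw [h2, Scheme.basicOpen_res, top_inf_eq]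

/-- The basic open of the function corresponding to `r` is the image of `D(r)`. -/
lemma basicOpen_secEquiv_symm (j : Spec R ⟶ X) [IsOpenImmersion j] (V : X.Opens)
    (hV : j.opensRange = V) (r : R) :
    X.basicOpen ((secEquiv j V hV).symm r) = j ''ᵁ (PrimeSpectrum.basicOpen r) := by
  have h1 := preimage_basicOpen_eq j V (top_le_preimage_of_opensRange_eq j V hV)
    ((secEquiv j V hV).symm r)
  rw [secEquiv_symm_apply] at h1
  rw [← h1, Scheme.Hom.image_preimage_eq_opensRange_inf, hV]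
  exact (inf_eq_right.mpr (X.basicOpen_le _)).symm

end PullHom

section Pushout

variable {X Y Z : Scheme.{u}} (f : Z ⟶ X) (g : Z ⟶ Y) [IsOpenImmersion f] [IsOpenImmersion g]

instance isOpenImmersion_span_map {i j : WalkingSpan} (h : i ⟶ j) :
    IsOpenImmersion ((span f g).map h) := by
  rcases h with _ | a
  · simp only [WidePushoutShape.hom_id, CategoryTheory.Functor.map_id]; infer_instance
  · rcases a with _ | _
    · exact inferInstanceAs (IsOpenImmersion f)
    · exact inferInstanceAs (IsOpenImmersion g)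

instance hasPushout_of_isOpenImmersion : HasPushout f g :=
  inferInstanceAs (HasColimit (span f g))

instance isOpenImmersion_pushout_inl : IsOpenImmersion (pushout.inl f g) :=
  inferInstanceAs (IsOpenImmersion (colimit.ι (span f g) WalkingSpan.left))

instance isOpenImmersion_pushout_inr : IsOpenImmersion (pushout.inr f g) :=
  inferInstanceAs (IsOpenImmersion (colimit.ι (span f g) WalkingSpan.right))

lemma pushout_jointly_surjective (p : ↥(pushout f g)) :
    (∃ x : X, pushout.inl f g x = p) ∨ (∃ y : Y, pushout.inr f g y = p) := by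
  obtain ⟨i, xi, h⟩ := Scheme.IsLocallyDirected.ι_jointly_surjective (span f g) p
  rcases i with _ | _ | _
  · right
    refine ⟨g xi, ?_⟩
    rw [← h, ← Scheme.Hom.comp_apply]
    have : g ≫ pushout.inr f g = colimit.ι (span f g) WalkingSpan.zero :=
      colimit.w (span f g) WalkingSpan.Hom.snd
    rw [this]
    rfl
  · left; exact ⟨xi, h⟩
  · right; exact ⟨xi, h⟩

lemma pushout_inl_eq_inr_iff {x : X} {y : Y} :
    pushout.inl f g x = pushout.inr f g y ↔ ∃ z : Z, f z = x ∧ g z = y := by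
  constructor
  · intro h
    obtain ⟨k, fi, fj, z, h1, h2⟩ :=
      (Scheme.IsLocallyDirected.ι_eq_ι_iff (span f g) (i := WalkingSpan.left)
        (j := WalkingSpan.right)).mp h
    rcases k with _ | _ | _
    · have e1 : fi = WalkingSpan.Hom.fst := Subsingleton.elim _ _
      have e2 : fj = WalkingSpan.Hom.snd := Subsingleton.elim _ _
      subst e1 e2
      exact ⟨z, h1, h2⟩
    · have fj' : WidePushoutShape.Hom (some WalkingPair.left) (some WalkingPair.right) := fj
      cases fj'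
    · have fi' : WidePushoutShape.Hom (some WalkingPair.right) (some WalkingPair.left) := fi
      cases fi'
  · rintro ⟨z, rfl, rfl⟩
    rw [← Scheme.Hom.comp_apply, ← Scheme.Hom.comp_apply, pushout.condition]

lemma pushout_opensRange_sup :
    (pushout.inl f g).opensRange ⊔ (pushout.inr f g).opensRange = ⊤ := by
  rw [eq_top_iff]
  intro p _
  rcases pushout_jointly_surjective f g p with ⟨x, rfl⟩ | ⟨y, rfl⟩
  · exact Or.inl ⟨x, rfl⟩
  · exact Or.inr ⟨y, rfl⟩

lemma pushout_opensRange_inf :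
    (f ≫ pushout.inl f g).opensRange =
      (pushout.inl f g).opensRange ⊓ (pushout.inr f g).opensRange := by
  apply le_antisymm
  · rintro _ ⟨z, rfl⟩
    refine ⟨⟨f z, ?_⟩, ⟨g z, ?_⟩⟩
    · rw [Scheme.Hom.comp_apply]
    · rw [← Scheme.Hom.comp_apply, pushout.condition]
  · rintro _ ⟨⟨x, rfl⟩, ⟨y, hy⟩⟩
    obtain ⟨z, rfl, rfl⟩ := (pushout_inl_eq_inr_iff f g).mp hy.symm
    exact ⟨z, by rw [Scheme.Hom.comp_apply]⟩

end Pushout

end

end Fermat.Agent.S27.H866
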